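import Fermat.Agent.H5.ThaineRam.Uniformizer

/-!
# C3-b2 (P-S14), part 4: `Gal(F/K)` acts trivially on `𝓞 F / Q`, and the full statement

`𝓞 F = ℤ[ζ_p ζ_ℓ]`, every `τ ∈ Gal(F/K)` fixes `ζ_p` and sends `ζ_ℓ` to a power `ζ_ℓ ^ s`, which
is congruent to `ζ_ℓ` modulo `ζ_ℓ - 1 ∈ Q`.
-/

set_option autoImplicit false

open scoped NumberField nonZeroDivisors

namespace Fermat.Agent.H5

/-- A ring endomorphism which is the identity modulo an ideal `Q` on a generator of a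
`ℤ`-algebra is the identity modulo `Q` everywhere. -/
theorem thaineRam_congr_of_adjoin {R : Type} [CommRing R] (Q : Ideal R) (τ : R →+* R)
    (ζ : R) (hζ : τ ζ - ζ ∈ Q) (x : R) (hx : x ∈ Algebra.adjoin ℤ ({ζ} : Set R)) :
    τ x - x ∈ Q := by
  induction hx using Algebra.adjoin_induction with
  | mem y hy =>
    rw [Set.mem_singleton_iff] at hy
    rw [hy]
    exact hζ
  | algebraMap r =>
    simp
  | add y z _ _ hy hz =>
    have : τ (y + z) - (y + z) = (τ y - y) + (τ z - z) := by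
      rw [map_add]; ring
    rw [this]
    exact Q.add_mem hy hz
  | mul y z _ _ hy hz =>
    have : τ (y * z) - y * z = τ y * (τ z - z) + (τ y - y) * z := by
      rw [map_mul]; ring
    rw [this]
    exact Q.add_mem (Q.mul_mem_left _ hz) (Q.mul_mem_right _ hy)

/-- `Gal(F/K)` acts trivially on `𝓞 F / Q`. -/
theorem thaineRam_gal_congr (p ℓ : ℕ) [Fact p.Prime] [Fact ℓ.Prime]
    (K : Type) [Field K] [NumberField K] [IsCyclotomicExtension {p} ℚ K]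
    (F : Type) [Field F] [NumberField F] [Algebra K F] [IsCyclotomicExtension {ℓ} K F]
    (hℓp : ℓ ≠ p) (ζℓ : 𝓞 F) (hζ : IsPrimitiveRoot ζℓ ℓ) (Q : Ideal (𝓞 F)) [hQp : Q.IsPrime]
    (hQ : ((ℓ : ℕ) : 𝓞 F) ∈ Q) (σ : F ≃ₐ[K] F) (x : 𝓞 F) :
    galRestrict (𝓞 K) K F (𝓞 F) σ x - x ∈ Q := by
  have hp : p.Prime := Fact.out
  have hℓ : ℓ.Prime := Fact.out
  have : NeZero p := ⟨hp.ne_zero⟩
  have : NeZero ℓ := ⟨hℓ.ne_zero⟩
  have hcop : Nat.Coprime ℓ p := (Nat.coprime_primes hℓ hp).mpr hℓp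
  have : NeZero (ℓ ^ (0 + 1) * p) := ⟨by simpa using ⟨hℓ.ne_zero, hp.ne_zero⟩⟩
  have hcyc := thaineRam_isCyclotomicExtension_mul p ℓ K F hℓp
  set τ : 𝓞 F ≃ₐ[𝓞 K] 𝓞 F := galRestrict (𝓞 K) K F (𝓞 F) σ with hτ
  -- the primitive `p`-th root of unity coming from `K`
  have hζp : IsPrimitiveRoot (IsCyclotomicExtension.zeta_spec p ℚ K).toInteger p :=
    (IsCyclotomicExtension.zeta_spec p ℚ K).toInteger_isPrimitiveRoot
  set ζp : 𝓞 F := algebraMap (𝓞 K) (𝓞 F) (IsCyclotomicExtension.zeta_spec p ℚ K).toInteger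
    with hζpdef
  have hζp' : IsPrimitiveRoot ζp p :=
    hζp.map_of_injective (FaithfulSMul.algebraMap_injective (𝓞 K) (𝓞 F))
  -- the product is a primitive `ℓ * p`-th root of unity
  have hprod : IsPrimitiveRoot (ζℓ * ζp) (ℓ ^ (0 + 1) * p) := by
    have h1 : orderOf ζℓ = ℓ := hζ.eq_orderOf.symm
    have h2 : orderOf ζp = p := hζp'.eq_orderOf.symm
    have h3 : orderOf (ζℓ * ζp) = orderOf ζℓ * orderOf ζp :=
      (Commute.all ζℓ ζp).orderOf_mul_eq_mul_orderOf_of_coprime (by rw [h1, h2]; exact hcop)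
    rw [h1, h2] at h3
    have := IsPrimitiveRoot.orderOf (ζℓ * ζp)
    rwa [h3, ← pow_one ℓ, ← zero_add 1] at this
  have hprod' : IsPrimitiveRoot (((ζℓ * ζp : 𝓞 F) : F)) (ℓ ^ (0 + 1) * p) :=
    hprod.map_of_injective NumberField.RingOfIntegers.coe_injective
  have htop := IsCyclotomicExtension.Rat.adjoin_singleton_eq_top hprod'
  have e : hprod'.toInteger = ζℓ * ζp := NumberField.RingOfIntegers.ext rfl
  rw [e] at htop
  -- `τ` fixes `ζp` and moves `ζℓ` to a power of itself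
  have hfix : τ ζp = ζp := τ.commutes _
  have hmem := thaineRam_mem ℓ F ζℓ hζ Q hQ
  have hpow : τ ζℓ ^ ℓ = 1 := by
    rw [← map_pow, hζ.pow_eq_one, map_one]
  obtain ⟨s, -, hs⟩ := hζ.eq_pow_of_pow_eq_one hpow
  have hζℓ : τ ζℓ - ζℓ ∈ Q := by
    rw [← hs]
    have h1 : ζℓ ^ s - ζℓ = (ζℓ ^ s - 1 ^ s) - (ζℓ - 1) := by ring
    rw [h1]
    obtain ⟨c, hc⟩ := sub_dvd_pow_sub_pow ζℓ 1 s
    rw [hc]
    exact Q.sub_mem (Q.mul_mem_right _ hmem) hmem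
  have hgen : τ (ζℓ * ζp) - ζℓ * ζp ∈ Q := by
    have : τ (ζℓ * ζp) - ζℓ * ζp = (τ ζℓ - ζℓ) * ζp := by
      rw [map_mul, hfix]; ring
    rw [this]
    exact Q.mul_mem_right _ hζℓ
  have := thaineRam_congr_of_adjoin Q (τ : 𝓞 F →+* 𝓞 F) (ζℓ * ζp) hgen x
    (by rw [htop]; exact Algebra.mem_top)
  exact this

/-- **C3-b2**: `F/K` is totally ramified at the primes over `ℓ`, with uniformiser `ζ_ℓ - 1`,
and `Gal(F/K)` acts trivially on the residue field. -/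
theorem thaineRam_totallyRamified : Fermat.Agent.H76.TotallyRamifiedStatement := by
  intro p ℓ _ _ _ K _ _ _ F _ _ _ _ hℓp _ ζℓ hζ Q hQp hQ
  exact ⟨thaineRam_ramificationIdx p ℓ K F hℓp Q hQ, thaineRam_mem ℓ F ζℓ hζ Q hQ,
    thaineRam_not_mem_sq p ℓ K F hℓp ζℓ hζ Q hQ,
    fun σ x => thaineRam_gal_congr p ℓ K F hℓp ζℓ hζ Q hQ σ x⟩

end Fermat.Agent.H5
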