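import Fermat.Agent.H76.ThaineInterfaces

/-!
# C3-b2 (P-S14), part 0/1: `F = K(ζ_ℓ)` is `{ℓ * p}`-cyclotomic over `ℚ`, and `e(Q | 𝓞 K) = ℓ - 1`
-/

set_option autoImplicit false

open scoped NumberField nonZeroDivisors

namespace Fermat.Agent.H5

/-- `F = K(ζ_ℓ)` with `K = ℚ(ζ_p)` is the `ℓ * p`-th cyclotomic field. -/
theorem thaineRam_isCyclotomicExtension_mul (p ℓ : ℕ) [Fact p.Prime] [Fact ℓ.Prime]
    (K : Type) [Field K] [NumberField K] [IsCyclotomicExtension {p} ℚ K]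
    (F : Type) [Field F] [NumberField F] [Algebra K F] [IsCyclotomicExtension {ℓ} K F]
    (hℓp : ℓ ≠ p) :
    IsCyclotomicExtension {ℓ ^ (0 + 1) * p} ℚ F := by
  have hp : p.Prime := Fact.out
  have hℓ : ℓ.Prime := Fact.out
  have : NeZero p := ⟨hp.ne_zero⟩
  have : NeZero ℓ := ⟨hℓ.ne_zero⟩
  have : NeZero (ℓ * p) := ⟨mul_ne_zero hℓ.ne_zero hp.ne_zero⟩
  have h1 : IsCyclotomicExtension ({p} ∪ {ℓ}) ℚ F :=
    IsCyclotomicExtension.trans {p} {ℓ} ℚ K F (algebraMap K F).injective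
  obtain ⟨r₁, hr₁⟩ := h1.exists_isPrimitiveRoot (n := p) (by simp) hp.ne_zero
  obtain ⟨r₂, hr₂⟩ := h1.exists_isPrimitiveRoot (n := ℓ) (by simp) hℓ.ne_zero
  have hcop : Nat.Coprime ℓ p := (Nat.coprime_primes hℓ hp).mpr hℓp
  have hr := IsPrimitiveRoot.pow_mul_pow_lcm hr₂ hr₁ hℓ.ne_zero hp.ne_zero
  rw [hcop.lcm_eq_mul] at hr
  have h2 : IsCyclotomicExtension ({p} ∪ {ℓ} ∪ {ℓ * p}) ℚ F :=
    IsCyclotomicExtension.union_of_isPrimitiveRoot _ ℚ F hr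
  have e1 : IsCyclotomicExtension {ℓ * p} ℚ F ↔ IsCyclotomicExtension ({ℓ * p} ∪ {p}) ℚ F :=
    IsCyclotomicExtension.iff_union_of_dvd ℚ F
      ⟨ℓ * p, by simp, mul_ne_zero hℓ.ne_zero hp.ne_zero, Dvd.intro_left ℓ rfl⟩
  have e2 : IsCyclotomicExtension ({ℓ * p} ∪ {p}) ℚ F ↔
      IsCyclotomicExtension ({ℓ * p} ∪ {p} ∪ {ℓ}) ℚ F :=
    IsCyclotomicExtension.iff_union_of_dvd ℚ F
      ⟨ℓ * p, by simp, mul_ne_zero hℓ.ne_zero hp.ne_zero, Dvd.intro p rfl⟩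
  have hset : ({ℓ * p} ∪ {p} ∪ {ℓ} : Set ℕ) = {p} ∪ {ℓ} ∪ {ℓ * p} := by
    ext x; simp only [Set.mem_union, Set.mem_singleton_iff]; tauto
  rw [zero_add, pow_one, e1, e2, hset]
  exact h2

/-- `[F : K] = ℓ - 1`. -/
theorem thaineRam_finrank (p ℓ : ℕ) [Fact p.Prime] [Fact ℓ.Prime]
    (K : Type) [Field K] [NumberField K] [IsCyclotomicExtension {p} ℚ K]
    (F : Type) [Field F] [NumberField F] [Algebra K F] [IsCyclotomicExtension {ℓ} K F]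
    (hℓp : ℓ ≠ p) : Module.finrank K F = ℓ - 1 := by
  have hp : p.Prime := Fact.out
  have hℓ : ℓ.Prime := Fact.out
  have := thaineRam_isCyclotomicExtension_mul p ℓ K F hℓp
  have hcop : Nat.Coprime ℓ p := (Nat.coprime_primes hℓ hp).mpr hℓp
  have hF : Module.finrank ℚ F = (ℓ - 1) * (p - 1) := by
    rw [IsCyclotomicExtension.Rat.finrank (ℓ ^ (0 + 1) * p) F, zero_add, pow_one,
      Nat.totient_mul hcop, Nat.totient_prime hℓ, Nat.totient_prime hp]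
  have hK : Module.finrank ℚ K = p - 1 := by
    rw [IsCyclotomicExtension.Rat.finrank p K, Nat.totient_prime hp]
  have htower := Module.finrank_mul_finrank ℚ K F
  rw [hF, hK] at htower
  have hp1 : 0 < p - 1 := Nat.sub_pos_of_lt hp.one_lt
  rw [mul_comm] at htower
  exact Nat.eq_of_mul_eq_mul_right hp1 htower

/-- A prime of `𝓞 F` containing `ℓ` lies over `(ℓ) ⊆ ℤ`. -/
theorem thaineRam_liesOver (ℓ : ℕ) [Fact ℓ.Prime]
    (F : Type) [Field F] (Q : Ideal (𝓞 F)) [Q.IsPrime] (hQ : ((ℓ : ℕ) : 𝓞 F) ∈ Q) :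
    Q.LiesOver (Ideal.span {(ℓ : ℤ)}) := by
  have hℓ : ℓ.Prime := Fact.out
  constructor
  have hmax : (Ideal.span {(ℓ : ℤ)}).IsMaximal :=
    Int.ideal_span_isMaximal_of_prime ℓ
  have hle : Ideal.span {(ℓ : ℤ)} ≤ Q.under ℤ := by
    rw [Ideal.span_le, Set.singleton_subset_iff]
    change algebraMap ℤ (𝓞 F) (ℓ : ℤ) ∈ Q
    simpa using hQ
  have hne : Q.under ℤ ≠ ⊤ := by
    have : (Q.under ℤ).IsPrime := inferInstance
    exact this.ne_top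
  exact hmax.eq_of_le hne hle

/-- `e(Q | ℤ) = ℓ - 1`. -/
theorem thaineRam_ramificationIdx_int (p ℓ : ℕ) [Fact p.Prime] [Fact ℓ.Prime]
    (K : Type) [Field K] [NumberField K] [IsCyclotomicExtension {p} ℚ K]
    (F : Type) [Field F] [NumberField F] [Algebra K F] [IsCyclotomicExtension {ℓ} K F]
    (hℓp : ℓ ≠ p) (Q : Ideal (𝓞 F)) [Q.IsPrime]
    (hQ : ((ℓ : ℕ) : 𝓞 F) ∈ Q) : Q.ramificationIdx ℤ = ℓ - 1 := by
  have hp : p.Prime := Fact.out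
  have hℓ : ℓ.Prime := Fact.out
  have := thaineRam_isCyclotomicExtension_mul p ℓ K F hℓp
  have := thaineRam_liesOver ℓ F Q hQ
  have hnd : ¬ ℓ ∣ p := fun h => hℓp ((Nat.prime_dvd_prime_iff_eq hℓ hp).mp h)
  have := IsCyclotomicExtension.Rat.ramificationIdx_eq (ℓ ^ (0 + 1) * p) (p := ℓ) (k := 0)
    (m := p) F Q rfl hnd
  simpa using this

/-- `f(Q | ℤ) = 1`. -/
theorem thaineRam_inertiaDeg_int (p ℓ : ℕ) [Fact p.Prime] [Fact ℓ.Prime]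
    (K : Type) [Field K] [NumberField K] [IsCyclotomicExtension {p} ℚ K]
    (F : Type) [Field F] [NumberField F] [Algebra K F] [IsCyclotomicExtension {ℓ} K F]
    (hℓp : ℓ ≠ p) (hmod : ℓ % p = 1) (Q : Ideal (𝓞 F)) [Q.IsPrime]
    (hQ : ((ℓ : ℕ) : 𝓞 F) ∈ Q) : Q.inertiaDeg ℤ = 1 := by
  have hp : p.Prime := Fact.out
  have hℓ : ℓ.Prime := Fact.out
  have := thaineRam_isCyclotomicExtension_mul p ℓ K F hℓp
  have := thaineRam_liesOver ℓ F Q hQ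
  have hnd : ¬ ℓ ∣ p := fun h => hℓp ((Nat.prime_dvd_prime_iff_eq hℓ hp).mp h)
  have := IsCyclotomicExtension.Rat.inertiaDeg_eq (ℓ ^ (0 + 1) * p) (p := ℓ) (k := 0)
    (m := p) F Q rfl hnd
  rw [this, orderOf_eq_one_iff]
  have h1 : ((ℓ : ℕ) : ZMod p) = ((ℓ % p : ℕ) : ZMod p) := by
    rw [ZMod.natCast_mod]
  rw [h1, hmod, Nat.cast_one]

/-- `e(Q | 𝓞 K) = ℓ - 1`. -/
theorem thaineRam_ramificationIdx (p ℓ : ℕ) [Fact p.Prime] [Fact ℓ.Prime]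
    (K : Type) [Field K] [NumberField K] [IsCyclotomicExtension {p} ℚ K]
    (F : Type) [Field F] [NumberField F] [Algebra K F] [IsCyclotomicExtension {ℓ} K F]
    (hℓp : ℓ ≠ p) (Q : Ideal (𝓞 F)) [Q.IsPrime]
    (hQ : ((ℓ : ℕ) : 𝓞 F) ∈ Q) : Q.ramificationIdx (𝓞 K) = ℓ - 1 := by
  have hp : p.Prime := Fact.out
  have hℓ : ℓ.Prime := Fact.out
  have : NeZero p := ⟨hp.ne_zero⟩
  have hnd : ¬ ℓ ∣ p := fun h => hℓp ((Nat.prime_dvd_prime_iff_eq hℓ hp).mp h)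
  have := thaineRam_liesOver ℓ F Q hQ
  have hq : (Q.under (𝓞 K)).LiesOver (Ideal.span {(ℓ : ℤ)}) :=
    Ideal.LiesOver.tower_bot Q (Q.under (𝓞 K)) (Ideal.span {(ℓ : ℤ)})
  have h1 := IsCyclotomicExtension.Rat.ramificationIdx_eq_of_not_dvd ℓ K (Q.under (𝓞 K)) hnd
  have h2 := thaineRam_ramificationIdx_int p ℓ K F hℓp Q hQ
  have h3 := Ideal.ramificationIdx_tower (R := ℤ) (Q.under (𝓞 K)) Q
  rw [h1, h2, one_mul] at h3
  exact h3.symm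

end Fermat.Agent.H5
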