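import Fermat.Agent.H5.ThaineRam.Setup

/-!
# C3-b2 (P-S14), parts 2/3: `ζ_ℓ - 1 ∈ Q` and `ζ_ℓ - 1 ∉ Q ^ 2`
-/

set_option autoImplicit false

open scoped NumberField nonZeroDivisors

namespace Fermat.Agent.H5

/-- In the ring of integers of any field containing a primitive `ℓ`-th root of unity `ζ`
(`ℓ` prime), `(ζ - 1) ^ (ℓ - 1)` is associated to `ℓ`. -/
theorem thaineRam_associated (ℓ : ℕ) [Fact ℓ.Prime] (F : Type) [Field F]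
    (ζℓ : 𝓞 F) (hζ : IsPrimitiveRoot ζℓ ℓ) :
    Associated ((ζℓ - 1) ^ (ℓ - 1)) ((ℓ : ℕ) : 𝓞 F) := by
  have hℓ : ℓ.Prime := Fact.out
  have : NeZero ℓ := ⟨hℓ.ne_zero⟩
  have hζ' : IsPrimitiveRoot ((ζℓ : 𝓞 F) : F) ℓ :=
    hζ.map_of_injective NumberField.RingOfIntegers.coe_injective
  have h := IsCyclotomicExtension.Rat.associated_zeta_sub_one_pow_prime ℓ hζ'
  have e : hζ'.toInteger = ζℓ := NumberField.RingOfIntegers.ext rfl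
  rwa [e] at h

/-- `ζ_ℓ - 1 ∈ Q` for every prime `Q` containing `ℓ`. -/
theorem thaineRam_mem (ℓ : ℕ) [Fact ℓ.Prime] (F : Type) [Field F]
    (ζℓ : 𝓞 F) (hζ : IsPrimitiveRoot ζℓ ℓ) (Q : Ideal (𝓞 F)) [hQp : Q.IsPrime]
    (hQ : ((ℓ : ℕ) : 𝓞 F) ∈ Q) : ζℓ - 1 ∈ Q := by
  obtain ⟨u, hu⟩ := (thaineRam_associated ℓ F ζℓ hζ).symm
  have h1 : (ζℓ - 1) ^ (ℓ - 1) ∈ Q := by
    rw [← hu]
    exact Q.mul_mem_right _ hQ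
  exact hQp.mem_of_pow_mem _ h1

/-- `ζ_ℓ - 1 ∉ Q ^ 2` for every prime `Q` of `𝓞 F` containing `ℓ`. -/
theorem thaineRam_not_mem_sq (p ℓ : ℕ) [Fact p.Prime] [Fact ℓ.Prime]
    (K : Type) [Field K] [NumberField K] [IsCyclotomicExtension {p} ℚ K]
    (F : Type) [Field F] [NumberField F] [Algebra K F] [IsCyclotomicExtension {ℓ} K F]
    (hℓp : ℓ ≠ p) (ζℓ : 𝓞 F) (hζ : IsPrimitiveRoot ζℓ ℓ) (Q : Ideal (𝓞 F)) [hQp : Q.IsPrime]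
    (hQ : ((ℓ : ℕ) : 𝓞 F) ∈ Q) : ζℓ - 1 ∉ Q ^ 2 := by
  have hℓ : ℓ.Prime := Fact.out
  intro hmem
  have hlo := thaineRam_liesOver ℓ F Q hQ
  have he := thaineRam_ramificationIdx_int p ℓ K F hℓp Q hQ
  have hℓ0 : ((ℓ : ℕ) : 𝓞 F) ≠ 0 := by
    exact_mod_cast hℓ.ne_zero
  have hmap : Ideal.map (algebraMap ℤ (𝓞 F)) (Ideal.span {(ℓ : ℤ)}) =
      Ideal.span {((ℓ : ℕ) : 𝓞 F)} := by
    rw [Ideal.map_span, Set.image_singleton]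
    simp
  have hmap0 : Ideal.map (algebraMap ℤ (𝓞 F)) (Ideal.span {(ℓ : ℤ)}) ≠ ⊥ := by
    rw [hmap, Ne, Ideal.span_singleton_eq_bot]
    exact hℓ0
  rw [Ideal.IsDedekindDomain.ramificationIdx_eq_multiplicity (Ideal.span {(ℓ : ℤ)}) Q hmap0]
    at he
  -- `ℓ ∈ Q ^ ℓ`
  obtain ⟨u, hu⟩ := thaineRam_associated ℓ F ζℓ hζ
  have h1 : (ζℓ - 1) ^ (ℓ - 1) ∈ (Q ^ 2) ^ (ℓ - 1) := Ideal.pow_mem_pow hmem _
  have h2 : ((ℓ : ℕ) : 𝓞 F) ∈ (Q ^ 2) ^ (ℓ - 1) := by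
    rw [← hu]
    exact Ideal.mul_mem_right _ _ h1
  have h3 : (Q ^ 2) ^ (ℓ - 1) ≤ Q ^ ℓ := by
    rw [← pow_mul]
    apply Ideal.pow_le_pow_right
    have := hℓ.two_le
    omega
  have h4 : Ideal.map (algebraMap ℤ (𝓞 F)) (Ideal.span {(ℓ : ℤ)}) ≤ Q ^ ℓ := by
    rw [hmap, Ideal.span_le, Set.singleton_subset_iff]
    exact h3 h2
  have hdvd : Q ^ ℓ ∣ Ideal.map (algebraMap ℤ (𝓞 F)) (Ideal.span {(ℓ : ℤ)}) :=
    Ideal.dvd_iff_le.mpr h4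
  have hfin : FiniteMultiplicity Q (Ideal.map (algebraMap ℤ (𝓞 F)) (Ideal.span {(ℓ : ℤ)})) := by
    apply FiniteMultiplicity.of_not_isUnit
    · rw [Ideal.isUnit_iff]
      exact hQp.ne_top
    · exact hmap0
  have := hfin.le_multiplicity_of_pow_dvd hdvd
  have := hℓ.two_le
  omega

end Fermat.Agent.H5
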